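import Fermat.Agent.Reflection.Restriction
import Fermat.Agent.GolodCriterion.Invariants

/-!
# Unramified homomorphisms and the torsion of the class group

For a number field inside an algebraic closure of `ℚ` the unramified homomorphisms to `ℤ/p` of its
group are as many as the classes killed by `p`, by the Hilbert class field.
-/

set_option autoImplicit false
set_option linter.unusedSectionVars false

noncomputable section

namespace Fermat.Agent.Reflection

open FA.GalCoh NumberField Fermat.Agent.ClassFieldTower Fermat.Agent.GolodCriterion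

local notation "Qb" => AlgebraicClosure ℚ

/-- The number of classes killed by `n`. -/
def torsCard (n : ℕ) (K : Type) [Field K] [NumberField K] : ℕ :=
  Nat.card (powMonoidHom n : ClassGroup (𝓞 K) →* ClassGroup (𝓞 K)).ker

theorem torsCard_congr (n : ℕ) {K F : Type} [Field K] [NumberField K] [Field F] [NumberField F]
    (e : K ≃+* F) : torsCard n K = torsCard n F := by
  let ecl : ClassGroup (𝓞 K) ≃* ClassGroup (𝓞 F) :=
    ClassGroup.mulEquiv (RingOfIntegers.mapRingEquiv e)
  refine Nat.card_congr (ecl.toEquiv.subtypeEquiv fun x => ?_)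
  show x ^ n = 1 ↔ ecl x ^ n = 1
  rw [← map_pow, map_eq_one_iff ecl ecl.injective]

variable {p : ℕ} [hp : Fact p.Prime]

/-- Independent unramified homomorphisms bound the torsion of the class group below. -/
theorem pow_card_le_torsCard (hp2 : p ≠ 2) (F : IntermediateField ℚ Qb) [FiniteDimensional ℚ F]
    [NumberField F] {d : ℕ} {b : Fin d → ↥(unrHom p F.fixingSubgroup)}
    (hb : LinearIndependent (ZMod p) b) : p ^ d ≤ torsCard p F := by
  classical
  let f : F.fixingSubgroup →* Multiplicative (Fin d → ZMod p) :=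
    MonoidHom.mk' (fun s => Multiplicative.ofAdd fun i => (b i).1.1 s) fun s s' => by
      rw [← ofAdd_add]
      exact congrArg _ (funext fun i => Z1_triv_mul _ s s')
  have hfs : Function.Surjective f := fun v => by
    suffices h : Submodule.span (ZMod p) (Set.range fun s => Multiplicative.toAdd (f s)) = ⊤ by
      have hv : Multiplicative.toAdd v ∈
          Submodule.span (ZMod p) (Set.range fun s => Multiplicative.toAdd (f s)) :=
        h ▸ Submodule.mem_top
      obtain ⟨s, hs⟩ : ∃ s, Multiplicative.toAdd (f s) = Multiplicative.toAdd v := by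
        refine Submodule.span_induction (p := fun w _ => ∃ s, Multiplicative.toAdd (f s) = w)
          ?_ ?_ ?_ ?_ hv
        · rintro _ ⟨s, rfl⟩
          exact ⟨s, rfl⟩
        · exact ⟨1, by rw [map_one, toAdd_one]⟩
        · rintro _ _ _ _ ⟨s, rfl⟩ ⟨s', rfl⟩
          exact ⟨s * s', by rw [map_mul, toAdd_mul]⟩
        · rintro a _ _ ⟨s, rfl⟩
          exact ⟨s ^ a.val, by
            rw [map_pow, toAdd_pow, ← Nat.cast_smul_eq_nsmul (ZMod p), ZMod.natCast_zmod_val]⟩
      exact ⟨s, Multiplicative.toAdd.injective hs⟩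
    by_contra hne
    obtain ⟨φ, hφ, hW⟩ := Submodule.exists_le_ker_of_lt_top _ (lt_top_iff_ne_top.2 hne)
    refine hφ (LinearMap.pi_ext fun i a => ?_)
    have hsum : ∑ j, φ (Pi.single j 1) • b j = 0 := Subtype.ext (Subtype.ext (funext fun s => by
      have h : φ (fun j => (b j).1.1 s) = 0 :=
        LinearMap.mem_ker.1 (hW (Submodule.subset_span ⟨s, rfl⟩))
      rw [← Finset.univ_sum_single (fun j => (b j).1.1 s), map_sum] at h
      rw [AddSubmonoidClass.coe_finsetSum, AddSubmonoidClass.coe_finsetSum, Finset.sum_apply]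
      refine (Finset.sum_congr rfl fun j _ => ?_).trans h
      show φ (Pi.single j 1) * (b j).1.1 s = _
      rw [show (Pi.single j ((b j).1.1 s) : Fin d → ZMod p)
        = (b j).1.1 s • Pi.single j 1 by rw [← Pi.single_smul', smul_eq_mul, mul_one],
        map_smul, smul_eq_mul, mul_comm]))
    rw [show (Pi.single i a : Fin d → ZMod p) = a • Pi.single i 1 by
      rw [← Pi.single_smul', smul_eq_mul, mul_one], map_smul,
      Fintype.linearIndependent_iff.1 hb (fun j => φ (Pi.single j 1)) hsum i, smul_zero]
    rfl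
  have hf : UnrClass p F.fixingSubgroup f := by
    refine ⟨?_, fun s => ⟨1, Multiplicative.toAdd.injective ?_⟩, fun q g τ hτ => ?_⟩
    · choose N hN hs using fun i => (b i).1.2.1
      refine ⟨Finset.univ.inf N, Finset.inf_mem _ (LQ.sub F.fixingSubgroup).top_mem
          (fun _ h _ h' => (LQ.sub F.fixingSubgroup).inf_mem h h') _ _ fun i _ => hN i,
        fun g s hsm => congrArg Multiplicative.ofAdd (funext fun i => ?_)⟩
      exact hs i g s (Finset.inf_le (f := N) (Finset.mem_univ i) hsm)
    · rw [toAdd_pow, pow_one, toAdd_one]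
      exact funext fun j => by
        rw [Pi.smul_apply, nsmul_eq_mul, ZMod.natCast_self, zero_mul]; rfl
    · show Multiplicative.ofAdd _ = 1
      rw [show (fun i => (b i).1.1 (locTo F.fixingSubgroup (q : ℕ) g τ)) = 0 from
        funext fun i => (b i).2 q g τ hτ, ofAdd_zero]
  obtain ⟨φ, hφ⟩ := exists_classGroup_hom_of_class hp2 F hfs hf
  exact le_card_ker_of_surjective hφ

/-- **The torsion of the class group counts the unramified homomorphisms.** -/
theorem pow_finrank_unrHom (hp2 : p ≠ 2) (F : IntermediateField ℚ Qb) [FiniteDimensional ℚ F]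
    [NumberField F] :
    p ^ Module.finrank (ZMod p) (unrHom p F.fixingSubgroup) = torsCard p F := by
  classical
  obtain ⟨n, hn⟩ : ∃ n, torsCard p F = p ^ n := IsPGroup.iff_card.1 fun x => ⟨1, Subtype.ext (by
    rw [pow_one]
    exact MonoidHom.mem_ker.1 x.2)⟩
  have hrank : Module.rank (ZMod p) (unrHom p F.fixingSubgroup) ≤ (n : Cardinal) := by
    refine rank_le fun s hs => ?_
    refine (Nat.pow_le_pow_iff_right hp.out.one_lt).1 ?_
    rw [← hn]
    refine pow_card_le_torsCard hp2 F (b := fun i => (s.equivFin.symm i).1) ?_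
    exact hs.comp _ s.equivFin.symm.injective
  have : FiniteDimensional (ZMod p) (unrHom p F.fixingSubgroup) :=
    Module.rank_lt_aleph0_iff.1 (hrank.trans_lt Cardinal.natCast_lt_aleph0)
  have hle : Module.finrank (ZMod p) (unrHom p F.fixingSubgroup) ≤ n :=
    Module.finrank_le_of_rank_le hrank
  suffices h : n ≤ Module.finrank (ZMod p) (unrHom p F.fixingSubgroup) by
    rw [hn, le_antisymm hle h]
  obtain ⟨φ, hφ⟩ := exists_surjective_of_le_card_ker (p := p) (C := ClassGroup (𝓞 F)) hn.ge
  obtain ⟨L, _, _, _, hL⟩ := exists_isHilbertClassField F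
  have := hL.isGalois
  obtain ⟨e⟩ := hL.equiv
  obtain ⟨i, r, hrs, hrlc, hru, -⟩ := exists_class_of_field F L hL.unr.1
  let ψ : F.fixingSubgroup →* Multiplicative (Fin n → ZMod p) := (φ.comp e.symm.toMonoidHom).comp r
  have hψs : Function.Surjective ψ := (hφ.comp e.symm.surjective).comp hrs
  let c : Fin n → ↥(unrHom p F.fixingSubgroup) := fun j =>
    ⟨⟨fun s => Multiplicative.toAdd (ψ s) j, mem_Z1_triv
      (hrlc.comp fun σ => Multiplicative.toAdd (φ (e.symm σ)) j) fun a b => by
        rw [map_mul, toAdd_mul]; rfl⟩,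
      fun q g τ hτ => by
        show Multiplicative.toAdd (φ (e.symm (r _))) j = 0
        rw [hru q g τ hτ, map_one, map_one, toAdd_one]
        rfl⟩
  refine (Fintype.card_fin n).symm.trans_le (LinearIndependent.fintype_card_le_finrank (b := c) ?_)
  refine Fintype.linearIndependent_iff.2 fun a ha j => ?_
  obtain ⟨s, hs⟩ := hψs (Multiplicative.ofAdd (Pi.single j 1))
  have h := congrFun (congrArg Subtype.val (congrArg Subtype.val ha)) s
  rw [AddSubmonoidClass.coe_finsetSum, AddSubmonoidClass.coe_finsetSum, Finset.sum_apply] at h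
  refine Eq.trans ?_ h
  rw [Finset.sum_eq_single j]
  · show a j = a j * Multiplicative.toAdd (ψ s) j
    rw [hs, toAdd_ofAdd, Pi.single_eq_same, mul_one]
  · intro k _ hk
    show a k * Multiplicative.toAdd (ψ s) k = 0
    rw [hs, toAdd_ofAdd, Pi.single_eq_of_ne hk, mul_zero]
  · exact fun h' => absurd (Finset.mem_univ j) h'

end Fermat.Agent.Reflection
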