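import Fermat.Agent.Reflection.ClassGroups

/-!
# The reflection theorem for quadratic fields

The characters of two square roots with product `√-3` times a rational are complementary modulo `3`,
so the classes killed by `3` in their fields differ by at most a factor `3`.
-/

set_option autoImplicit false
set_option linter.unusedSectionVars false

noncomputable section

namespace Fermat.Agent.Reflection

open FA.GalCoh NumberField Fermat.Agent.GolodCriterion
open scoped IntermediateField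

local notation "Qb" => AlgebraicClosure ℚ

/-- An irrational square root of a rational number. -/
structure SqrtRat (a : Qb) : Prop where
  sq : ∃ r : ℚ, a ^ 2 = algebraMap ℚ Qb r
  irrat : ∀ r : ℚ, algebraMap ℚ Qb r ≠ a

namespace SqrtRat

variable {a : Qb}

theorem ne_zero (ha : SqrtRat a) : a ≠ 0 := fun h => ha.irrat 0 (by rw [h, map_zero])

theorem ne_neg (ha : SqrtRat a) : -a ≠ a := fun h => ha.ne_zero (by linear_combination -h / 2)

theorem apply_eq_or (ha : SqrtRat a) (g : GQ) : g a = a ∨ g a = -a := by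
  obtain ⟨r, hr⟩ := ha.sq
  exact sq_eq_sq_iff_eq_or_eq_neg.1 (by rw [← map_pow, hr, AlgEquiv.commutes])

theorem neg (ha : SqrtRat a) : SqrtRat (-a) :=
  ⟨by simpa using ha.sq, fun r hr => ha.irrat (-r) (by rw [map_neg, hr, neg_neg])⟩

theorem finrank_eq (ha : SqrtRat a) : Module.finrank ℚ ℚ⟮a⟯ = 2 := by
  have hint : IsIntegral ℚ a := Algebra.IsIntegral.isIntegral a
  rw [IntermediateField.adjoin.finrank hint]
  refine le_antisymm ?_ ((minpoly.two_le_natDegree_iff hint).2 fun ⟨r, hr⟩ => ha.irrat r hr)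
  obtain ⟨r, hr⟩ := ha.sq
  refine (Polynomial.natDegree_le_of_dvd (minpoly.dvd ℚ a (p := .X ^ 2 - .C r) ?_)
    (Polynomial.X_pow_sub_C_ne_zero two_pos r)).trans_eq Polynomial.natDegree_X_pow_sub_C
  rw [map_sub, map_pow, Polynomial.aeval_X, Polynomial.aeval_C, hr, sub_self]

theorem exists_ne (ha : SqrtRat a) : ∃ g : GQ, g a ≠ a := by
  by_contra h
  push Not at h
  obtain ⟨r, hr⟩ := IntermediateField.mem_bot.1
    ((InfiniteGalois.mem_bot_iff_fixed a).2 h)
  exact ha.irrat r hr

end SqrtRat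

variable {p : ℕ} [hp : Fact p.Prime]

variable (p) in
open Classical in
/-- The character of a square root. -/
def signChar {a : Qb} (ha : SqrtRat a) : GQ →* (ZMod p)ˣ :=
  MonoidHom.mk' (fun g => if g a = a then 1 else -1) fun g h => by
    rcases ha.apply_eq_or g with hg | hg <;> rcases ha.apply_eq_or h with hh | hh <;>
      simp [AlgEquiv.mul_apply, hg, hh, ha.ne_neg]

theorem neg_one_ne_one (hp2 : p ≠ 2) : (-1 : (ZMod p)ˣ) ≠ 1 := fun h => hp2 <| by
  have h1 := congrArg Units.val h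
  rw [Units.val_neg, Units.val_one, neg_eq_iff_add_eq_zero, one_add_one_eq_two,
    show (2 : ZMod p) = ((2 : ℕ) : ZMod p) from rfl, ZMod.natCast_eq_zero_iff] at h1
  exact (Nat.prime_dvd_prime_iff_eq hp.out Nat.prime_two).1 h1

variable {a : Qb} (ha : SqrtRat a)

theorem signChar_of_eq {g : GQ} (h : g a = a) : signChar p ha g = 1 := if_pos h

theorem signChar_of_ne {g : GQ} (h : g a ≠ a) : signChar p ha g = -1 := if_neg h

theorem ker_signChar (hp2 : p ≠ 2) :
    (signChar p ha).ker = (ℚ⟮a⟯).fixingSubgroup := by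
  ext g
  rw [MonoidHom.mem_ker]
  refine ⟨fun h => ?_, fun h => signChar_of_eq ha
    ((IntermediateField.mem_fixingSubgroup_iff _ _).1 h a
      (IntermediateField.mem_adjoin_simple_self ℚ a))⟩
  have hga : g a = a := by
    by_contra hne
    exact neg_one_ne_one hp2 ((signChar_of_ne ha hne).symm.trans h)
  have hle : ℚ⟮a⟯ ≤ IntermediateField.fixedField (Subgroup.zpowers g) :=
    IntermediateField.adjoin_simple_le_iff.2 ((IntermediateField.mem_fixedField_iff _ _).2
      (Subgroup.forall_mem_zpowers.2 fun k => by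
        have hmem : g ^ k ∈ MulAction.stabilizer GQ a :=
          zpow_mem (MulAction.mem_stabilizer_iff.2 hga) k
        exact hmem))
  exact (IntermediateField.le_iff_le _ _).1 hle (Subgroup.mem_zpowers g)

theorem quadChar_signChar (hp2 : p ≠ 2) : QuadChar (signChar p ha) where
  smooth := by
    have : FiniteDimensional ℚ ℚ⟮a⟯ :=
      IntermediateField.adjoin.finiteDimensional (Algebra.IsIntegral.isIntegral a)
    exact ⟨_, fixingSubgroup_mem_LQ ℚ⟮a⟯, fun s hs => signChar_of_eq ha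
      ((IntermediateField.mem_fixingSubgroup_iff _ _).1 hs a
        (IntermediateField.mem_adjoin_simple_self ℚ a))⟩
  sq g := by
    by_cases h : g a = a
    · rw [signChar_of_eq ha h, one_mul]
    · rw [signChar_of_ne ha h, neg_mul_neg, one_mul]
  ne h := by
    obtain ⟨g, hg⟩ := ha.exists_ne
    exact neg_one_ne_one hp2 ((signChar_of_ne (p := p) ha hg).symm.trans (DFunLike.congr_fun h g))

/-- The character of an imaginary square root is odd. -/
theorem signChar_complexConjugation {r : ℚ} (hr : a ^ 2 = algebraMap ℚ Qb r) (hneg : r < 0) :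
    signChar p ha complexConjugation = -1 := by
  refine signChar_of_ne ha fun h => ?_
  have hc := congrArg complexEmbedding h
  rw [complexEmbedding_complexConjugation, Complex.conj_eq_iff_im] at hc
  have h2 := congrArg complexEmbedding hr
  rw [map_pow, eq_ratCast, map_ratCast] at h2
  have hre := congrArg Complex.re h2
  rw [pow_two, Complex.mul_re, hc, mul_zero, sub_zero, Complex.ratCast_re] at hre
  nlinarith [mul_self_nonneg (complexEmbedding a).re, (Rat.cast_lt (K := ℝ)).2 hneg,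
    (Rat.cast_zero : ((0 : ℚ) : ℝ) = 0)]

/-- Twice a cube root of unity plus one. -/
def sqrtNegThree : Qb :=
  have : Fact (Nat.Prime 3) := ⟨Nat.prime_three⟩
  2 * zetaQ 3 + 1

theorem units_three : ∀ u : (ZMod 3)ˣ, u = 1 ∨ u = -1 := by decide

section three

variable [Fact (Nat.Prime 3)]

theorem zetaQ_three : zetaQ 3 ^ 2 + zetaQ 3 + 1 = 0 := by
  have h := (zetaQ_spec (p := 3)).geom_sum_eq_zero (by norm_num)
  simp only [Finset.sum_range_succ, Finset.sum_range_zero, pow_zero, pow_one, zero_add] at h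
  linear_combination h

theorem sqrtNegThree_sq : sqrtNegThree ^ 2 = algebraMap ℚ Qb (-3) := by
  rw [map_neg, map_ofNat]
  show (2 * zetaQ 3 + 1) ^ 2 = _
  linear_combination 4 * zetaQ_three

theorem cycloChar_three_eq (g : GQ) :
    (g sqrtNegThree = sqrtNegThree ∧ ExtCitation.cycloChar 3 g = 1) ∨
      (g sqrtNegThree = -sqrtNegThree ∧ ExtCitation.cycloChar 3 g = -1) := by
  have hb : g sqrtNegThree = 2 * zetaQ 3 ^ ((ExtCitation.cycloChar 3 g : ZMod 3)).val + 1 := by
    show g (2 * zetaQ 3 + 1) = _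
    rw [map_add, map_mul, map_ofNat, map_one, apply_zetaQ]
  rcases units_three (ExtCitation.cycloChar 3 g) with h | h
  · refine Or.inl ⟨?_, h⟩
    rw [hb, h]
    show 2 * zetaQ 3 ^ 1 + 1 = 2 * zetaQ 3 + 1
    rw [pow_one]
  · refine Or.inr ⟨?_, h⟩
    rw [hb, h]
    show 2 * zetaQ 3 ^ 2 + 1 = -(2 * zetaQ 3 + 1)
    linear_combination 2 * zetaQ_three

/-- The characters of `√D` and `√-3D` are complementary modulo `3`. -/
theorem signChar_mul_signChar {a' : Qb} (ha' : SqrtRat a')
    (h : a' = a * sqrtNegThree ∨ a' = -(a * sqrtNegThree)) (g : GQ) :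
    signChar 3 ha g * signChar 3 ha' g = ExtCitation.cycloChar 3 g := by
  rcases ha.apply_eq_or g with hg | hg <;> rcases cycloChar_three_eq g with ⟨hb, hc⟩ | ⟨hb, hc⟩
  · rw [signChar_of_eq ha hg, signChar_of_eq ha'
      (by rcases h with rfl | rfl <;> simp [hg, hb]), hc, one_mul]
  · rw [signChar_of_eq ha hg, signChar_of_ne ha'
      (fun e => ha'.ne_neg (Eq.trans (by rcases h with rfl | rfl <;> simp [hg, hb]) e)), hc,
      one_mul]
  · rw [signChar_of_ne ha (hg ▸ ha.ne_neg), signChar_of_ne ha'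
      (fun e => ha'.ne_neg (Eq.trans (by rcases h with rfl | rfl <;> simp [hg, hb]) e)), hc,
      neg_mul_neg, one_mul]
  · rw [signChar_of_ne ha (hg ▸ ha.ne_neg), signChar_of_eq ha'
      (by rcases h with rfl | rfl <;> simp [hg, hb]), hc, mul_one]

end three

/-- The classes killed by `p` in a quadratic field, by the cohomology of its character. -/
theorem pow_finrank_unrOutside (hp2 : p ≠ 2) :
    ∃ (_ : FiniteDimensional ℚ ℚ⟮a⟯) (_ : NumberField ℚ⟮a⟯),
      p ^ Module.finrank (ZMod p) (unrOutside ∅ (chr (signChar p ha))) = torsCard p ℚ⟮a⟯ := by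
  have hfd : FiniteDimensional ℚ ℚ⟮a⟯ :=
    IntermediateField.adjoin.finiteDimensional (Algebra.IsIntegral.isIntegral a)
  have hnf : NumberField ℚ⟮a⟯ := { }
  refine ⟨hfd, hnf, ?_⟩
  rw [finrank_unrOutside_eq (quadChar_signChar ha hp2), ker_signChar ha hp2]
  exact pow_finrank_unrHom hp2 ℚ⟮a⟯

/-- **Scholz reflection** for square roots. -/
theorem torsCard_reflection (ha : SqrtRat a) {a' : Qb} (ha' : SqrtRat a') [FiniteDimensional ℚ ℚ⟮a⟯]
    [NumberField ℚ⟮a⟯] [FiniteDimensional ℚ ℚ⟮a'⟯] [NumberField ℚ⟮a'⟯]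
    (h : a' = a * sqrtNegThree ∨ a' = -(a * sqrtNegThree)) {r : ℚ}
    (hr : a' ^ 2 = algebraMap ℚ Qb r) (hneg : r < 0) :
    torsCard 3 ℚ⟮a⟯ ≤ torsCard 3 ℚ⟮a'⟯ ∧ torsCard 3 ℚ⟮a'⟯ ≤ 3 * torsCard 3 ℚ⟮a⟯ := by
  have : Fact (Nat.Prime 3) := ⟨Nat.prime_three⟩
  have h3 : (3 : ℕ) ≠ 2 := by norm_num
  obtain ⟨_, _, e⟩ := pow_finrank_unrOutside (p := 3) ha h3
  obtain ⟨_, _, e'⟩ := pow_finrank_unrOutside (p := 3) ha' h3
  have hq := quadChar_signChar (p := 3) ha h3
  have hq' := quadChar_signChar (p := 3) ha' h3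
  have hprod := signChar_mul_signChar ha ha' h
  have hprod' : ∀ g, signChar 3 ha' g * signChar 3 ha g = ExtCitation.cycloChar 3 g := fun g => by
    rw [mul_comm]; exact hprod g
  have h1 := finrank_unrOutside_le h3 hq.smooth hq'.smooth hprod hq.ne hq'.ne
  have h1' := finrank_ker_conj_le_one (signChar 3 ha)
  have h2 := finrank_unrOutside_le h3 hq'.smooth hq.smooth hprod' hq'.ne hq.ne
  rw [finrank_ker_conj_eq_zero (ε := signChar 3 ha') (by
    rw [signChar_complexConjugation ha' hr hneg]; exact neg_one_ne_one h3), add_zero] at h2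
  rw [← e, ← e', ← pow_succ']
  exact ⟨Nat.pow_le_pow_right (by norm_num) h2, Nat.pow_le_pow_right (by norm_num) (by omega)⟩

variable {K : Type} [Field K] [NumberField K]

/-- An abstract quadratic field with a square root of a non-square, inside `ℚ̄`. -/
theorem exists_sqrtRat (h2 : Module.finrank ℚ K = 2) {x : K} {D : ℚ} (hD : ¬ IsSquare D)
    (hx : x ^ 2 = algebraMap ℚ K D) :
    ∃ a : Qb, a ^ 2 = algebraMap ℚ Qb D ∧ SqrtRat a ∧ Nonempty (K ≃+* ℚ⟮a⟯) := by
  let j : K →ₐ[ℚ] Qb := IsAlgClosed.lift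
  have hj : (j x) ^ 2 = algebraMap ℚ Qb D := by rw [← map_pow, hx, AlgHom.commutes]
  have ha : SqrtRat (j x) := ⟨⟨D, hj⟩, fun r hr => hD ⟨r, (algebraMap ℚ Qb).injective (by
    rw [map_mul, hr, ← pow_two, hj])⟩⟩
  have hle : ℚ⟮j x⟯ ≤ j.fieldRange := IntermediateField.adjoin_simple_le_iff.2 ⟨x, rfl⟩
  have : FiniteDimensional ℚ j.fieldRange :=
    (AlgEquiv.ofInjectiveField j).toLinearEquiv.finiteDimensional
  have heq : ℚ⟮j x⟯ = j.fieldRange := IntermediateField.eq_of_le_of_finrank_eq hle (by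
    exact ha.finrank_eq.trans
      (h2.symm.trans (AlgEquiv.ofInjectiveField j).toLinearEquiv.finrank_eq))
  exact ⟨j x, hj, ha, heq ▸ ⟨(AlgEquiv.ofInjectiveField j).toRingEquiv⟩⟩

variable {K' : Type} [Field K'] [NumberField K']

/-- **Scholz reflection**: `ℚ(√D)` and `ℚ(√-3D)`. -/
theorem scholz (hK : Module.finrank ℚ K = 2) (hK' : Module.finrank ℚ K' = 2) {x : K} {y : K'}
    {D : ℚ} (hpos : 0 < D) (hD : ¬ IsSquare D) (hx : x ^ 2 = algebraMap ℚ K D)
    (hy : y ^ 2 = algebraMap ℚ K' (-3 * D)) :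
    torsCard 3 K ≤ torsCard 3 K' ∧ torsCard 3 K' ≤ 3 * torsCard 3 K := by
  have : Fact (Nat.Prime 3) := ⟨Nat.prime_three⟩
  have hneg : -3 * D < 0 := by linarith
  obtain ⟨a, hasq, ha, ⟨e⟩⟩ := exists_sqrtRat hK hD hx
  obtain ⟨a', ha'sq, ha', ⟨e'⟩⟩ := exists_sqrtRat hK' (fun h => (IsSquare.nonneg h).not_gt hneg) hy
  obtain ⟨_, _, -⟩ := pow_finrank_unrOutside (p := 3) ha (by norm_num)
  obtain ⟨_, _, -⟩ := pow_finrank_unrOutside (p := 3) ha' (by norm_num)
  rw [torsCard_congr 3 e, torsCard_congr 3 e']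
  refine torsCard_reflection ha ha' (sq_eq_sq_iff_eq_or_eq_neg.1 ?_) ha'sq hneg
  rw [ha'sq, mul_pow, hasq, sqrtNegThree_sq, ← map_mul, mul_comm]

end Fermat.Agent.Reflection
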