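import Fermat.Agent.Reflection.Selmer
import Fermat.Agent.GolodCriterion.Classes
import Fermat.Agent.Local.Minkowski

/-!
# Quadratic characters and their kernels

The everywhere unramified classes of a quadratic character are the everywhere unramified
homomorphisms of its kernel: restriction is bijective as `ℚ` has no unramified extension.
-/

set_option autoImplicit false
set_option linter.unusedSectionVars false

noncomputable section

namespace Fermat.Agent.Reflection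

open FA.GalCoh

variable {p : ℕ} [hp : Fact p.Prime]

variable (p) in
/-- The homomorphisms of `H` unramified at every finite place. -/
def unrHom (H : Subgroup GQ) : Submodule (ZMod p) ↥(Z1 (LQ.sub H) (triv H p)) where
  carrier := {c | ∀ (q : Nat.Primes) (g : GQ) (τ : hloc H (q : ℕ) g),
    (τ : LG (q : ℕ)) ∈ inertL (q : ℕ) → c.1 (locTo H (q : ℕ) g τ) = 0}
  zero_mem' _ _ _ _ := rfl
  add_mem' {c c'} h h' q g τ hτ := by
    show c.1 _ + c'.1 _ = 0
    rw [h q g τ hτ, h' q g τ hτ, add_zero]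
  smul_mem' a c h q g τ hτ := by
    show a • c.1 _ = 0
    rw [h q g τ hτ, smul_zero]

/-- A non-trivial quadratic character with open kernel. -/
structure QuadChar (η : GQ →* (ZMod p)ˣ) : Prop where
  smooth : SmoothChar η
  sq : ∀ g, η g * η g = 1
  ne : η ≠ 1

variable {η : GQ →* (ZMod p)ˣ}

theorem QuadChar.ker_mem (h : QuadChar η) : η.ker ∈ LQ.carrier := by
  obtain ⟨N, hN, hN1⟩ := h.smooth
  exact mem_LQ_iff_isOpen.2 (Subgroup.isOpen_mono (fun s hs => MonoidHom.mem_ker.2 (hN1 s hs))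
    (mem_LQ_iff_isOpen.1 hN))

theorem QuadChar.val_eq_neg_one (h : QuadChar η) {g : GQ} (hg : g ∉ η.ker) :
    (η g : ZMod p) = -1 := by
  rcases mul_self_eq_one_iff.1 (show (η g : ZMod p) * (η g : ZMod p) = 1 by
    rw [← Units.val_mul, h.sq, Units.val_one]) with h1 | h1
  · exact absurd (MonoidHom.mem_ker.2 (Units.ext h1)) hg
  · exact h1

theorem QuadChar.two_ne_zero (h : QuadChar η) : (2 : ZMod p) ≠ 0 := fun h2 => h.ne <|
  MonoidHom.ext fun g => by
    by_contra hg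
    have h1 := h.val_eq_neg_one (g := g) fun hm => hg (MonoidHom.mem_ker.1 hm)
    have h3 : (-1 : ZMod p) = 1 := neg_eq_of_add_eq_zero_left (by rw [one_add_one_eq_two, h2])
    exact hg (Units.ext (by rw [h1, h3]; rfl))

theorem QuadChar.exists_not_mem (h : QuadChar η) : ∃ t, t ∉ η.ker := by
  by_contra hne
  push Not at hne
  exact h.ne (MonoidHom.ext fun g => MonoidHom.mem_ker.1 (hne g))

theorem QuadChar.mul_mem (h : QuadChar η) {a b : GQ} (ha : a ∉ η.ker) (hb : b ∉ η.ker) :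
    a * b ∈ η.ker := MonoidHom.mem_ker.2 (Units.ext (by
  rw [map_mul, Units.val_mul, h.val_eq_neg_one ha, h.val_eq_neg_one hb, neg_mul_neg, one_mul,
    Units.val_one]))

theorem QuadChar.inv_not_mem {a : GQ} (ha : a ∉ η.ker) : a⁻¹ ∉ η.ker := fun h =>
  ha (inv_mem_iff.1 h)

theorem compat_subtype (H : Subgroup GQ) : Compat LQ (LQ.sub H) H.subtype := fun N hN =>
  ⟨N.subgroupOf H, ⟨N, hN, rfl⟩, le_rfl⟩

theorem cocycle_mul_mem (f : ↥(Z1 LQ (chr η))) {a : GQ} (ha : a ∈ η.ker) (b : GQ) :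
    f.1 (a * b) = f.1 a + f.1 b := by
  rw [f.2.2, chr_apply, MonoidHom.mem_ker.1 ha, Units.val_one, one_mul, add_comm]

variable (η) in
/-- Restriction of cocycles to the kernel. -/
def restrZ : ↥(Z1 LQ (chr η)) →ₗ[ZMod p] ↥(Z1 (LQ.sub η.ker) (triv η.ker p)) where
  toFun f := ⟨fun s => f.1 s.1, GolodCriterion.mem_Z1_triv
    (f.2.1.precomp (compat_subtype η.ker)) fun a b => cocycle_mul_mem f a.2 b.1⟩
  map_add' _ _ := rfl
  map_smul' _ _ := rfl

variable (η) in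
/-- Restriction of classes to the kernel. -/
def restr : H1 LQ (chr η) →ₗ[ZMod p] ↥(Z1 (LQ.sub η.ker) (triv η.ker p)) :=
  Submodule.liftQ _ (restrZ η) fun f hf => by
    obtain ⟨v, hv⟩ := hf
    refine LinearMap.mem_ker.2 (Subtype.ext (funext fun s => ?_))
    have hs : f.1 s.1 = d0 (chr η) v s.1 := (congrFun hv s.1).symm
    show f.1 s.1 = 0
    rw [hs, d0_apply, chr_apply, MonoidHom.mem_ker.1 s.2, Units.val_one, one_mul, sub_self]

theorem restr_mk1 (f : ↥(Z1 LQ (chr η))) (s : η.ker) :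
    (restr η (mk1 LQ (chr η) f)).1 s = f.1 s.1 := rfl

theorem restr_injective (h : QuadChar η) : Function.Injective (restr η) :=
  (injective_iff_map_eq_zero _).2 fun x hx => by
    obtain ⟨f, rfl⟩ := mk1_surjective x
    have h0 : ∀ s ∈ η.ker, f.1 s = 0 := fun s hs =>
      (restr_mk1 f ⟨s, hs⟩).symm.trans (congrFun (congrArg Subtype.val hx) ⟨s, hs⟩)
    obtain ⟨t, ht⟩ := h.exists_not_mem
    refine (mk1_eq_zero LQ (chr η) f).2 ⟨-(f.1 t / 2), funext fun g => ?_⟩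
    rw [d0_apply, chr_apply]
    by_cases hg : g ∈ η.ker
    · rw [MonoidHom.mem_ker.1 hg, Units.val_one, one_mul, sub_self, h0 g hg]
    · have hgt : g * t⁻¹ ∈ η.ker := h.mul_mem hg (QuadChar.inv_not_mem ht)
      have e : f.1 g = f.1 t := by
        rw [show f.1 g = f.1 (g * t⁻¹ * t) by rw [inv_mul_cancel_right], cocycle_mul_mem f hgt,
          h0 _ hgt, zero_add]
      rw [h.val_eq_neg_one hg, e, neg_one_mul, neg_neg, sub_neg_eq_add, ← add_div,
        ← two_mul, mul_div_cancel_left₀ _ h.two_ne_zero]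

/-- An unramified class restricts to an unramified homomorphism. -/
theorem restr_mem_unrHom {x : H1 LQ (chr η)} (hx : x ∈ unrOutside ∅ (chr η)) :
    restr η x ∈ unrHom p η.ker := by
  obtain ⟨f, rfl⟩ := mk1_surjective x
  intro q g τ hτ
  obtain ⟨c, hc, e⟩ := mem_unrOutside.1 hx q (Finset.notMem_empty _)
  have e1 : mk1 (LL (q : ℕ)) ((chr η).comp (loc (q : ℕ))) c
      = mk1 (LL (q : ℕ)) ((chr η).comp (loc (q : ℕ)))
          (mapZ1 compat_loc (Equi.res (loc (q : ℕ)) (chr η)) f) :=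
    e.trans (map1_mk1 compat_loc _ f)
  obtain ⟨v, hv⟩ := (mk1_eq_mk1 _ _ c _).1 e1
  set s := locTo η.ker (q : ℕ) g τ
  have hη : η (loc (q : ℕ) (τ : LG (q : ℕ))) = 1 := by
    have := MonoidHom.mem_ker.1 ((mem_hloc η.ker).1 τ.2)
    rwa [map_mul, map_mul, map_inv, mul_comm, ← mul_assoc, mul_inv_cancel, one_mul] at this
  have hloc : f.1 (loc (q : ℕ) (τ : LG (q : ℕ))) = 0 := by
    have hv' : d0 ((chr η).comp (loc (q : ℕ))) v τ
        = c.1 τ - f.1 (loc (q : ℕ) (τ : LG (q : ℕ))) := congrFun hv τ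
    rw [hc _ hτ, zero_sub, d0_apply, MonoidHom.comp_apply, chr_apply, hη, Units.val_one,
      one_mul, sub_self, zero_eq_neg] at hv'
    exact hv'
  have hgs : g * (s : GQ) = loc (q : ℕ) (τ : LG (q : ℕ)) * g := by
    show g * (g⁻¹ * loc (q : ℕ) (τ : LG (q : ℕ)) * g) = _
    group
  have h1 := f.2.2 g (s : GQ)
  rw [hgs, cocycle_mul_mem f (MonoidHom.mem_ker.2 hη), hloc, zero_add, chr_apply,
    right_eq_add] at h1
  rw [restr_mk1]
  exact (mul_eq_zero.1 h1).resolve_left (Units.ne_zero _)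

/-- A class with unramified restriction is unramified. -/
theorem mem_unrOutside_of_restr (h : QuadChar η) {x : H1 LQ (chr η)}
    (hx : restr η x ∈ unrHom p η.ker) : x ∈ unrOutside ∅ (chr η) := by
  obtain ⟨f, rfl⟩ := mk1_surjective x
  refine mem_unrOutside.2 fun q _ => ?_
  set F := mapZ1 compat_loc (Equi.res (loc (q : ℕ)) (chr η)) f
  have hker : ∀ ι ∈ inertL (q : ℕ), η (loc (q : ℕ) ι) = 1 → f.1 (loc (q : ℕ) ι) = 0 := by
    intro ι hι h1
    have hmem : ι ∈ hloc η.ker (q : ℕ) 1 := (mem_hloc η.ker).2 (by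
      rw [inv_one, one_mul, mul_one]
      exact MonoidHom.mem_ker.2 h1)
    have h2 := hx q 1 ⟨ι, hmem⟩ hι
    rw [restr_mk1] at h2
    simpa [locTo] using h2
  have key : ∀ v : ZMod p, (∀ ι ∈ inertL (q : ℕ),
      f.1 (loc (q : ℕ) ι) = (η (loc (q : ℕ) ι) : ZMod p) * v - v) →
      resq1 (q : ℕ) (chr η) (mk1 LQ (chr η) f) ∈ unrH1 ((chr η).comp (loc (q : ℕ))) := fun v hv =>
    ⟨F - ⟨d0 _ v, d0_mem_Z1 (((smooth_chr_iff η).2 h.smooth).comp compat_loc) v⟩,
      fun ι hι => by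
        show f.1 (loc (q : ℕ) ι) - ((η (loc (q : ℕ) ι) : ZMod p) * v - v) = 0
        rw [hv ι hι, sub_self],
      ((mk1_eq_mk1 _ _ _ _).2 ⟨-v, funext fun τ => by
        show d0 _ (-v) τ = (f.1 (loc (q : ℕ) τ) - d0 _ v τ) - f.1 (loc (q : ℕ) τ)
        rw [map_neg, Pi.neg_apply, sub_sub_cancel_left]⟩).trans
        (map1_mk1 compat_loc _ f).symm⟩
  by_cases hr : ∀ ι ∈ inertL (q : ℕ), η (loc (q : ℕ) ι) = 1
  · exact key 0 fun ι hι => by rw [hker ι hι (hr ι hι), mul_zero, sub_zero]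
  push Not at hr
  obtain ⟨ι₀, hι₀, hne⟩ := hr
  have hι₀' : loc (q : ℕ) ι₀ ∉ η.ker := fun hm => hne (MonoidHom.mem_ker.1 hm)
  refine key (-(f.1 (loc (q : ℕ) ι₀) / 2)) fun ι hι => ?_
  by_cases h1 : loc (q : ℕ) ι ∈ η.ker
  · rw [MonoidHom.mem_ker.1 h1, Units.val_one, one_mul, sub_self,
      hker ι hι (MonoidHom.mem_ker.1 h1)]
  · have hm : loc (q : ℕ) (ι * ι₀⁻¹) ∈ η.ker := by
      rw [map_mul, map_inv]
      exact h.mul_mem h1 (QuadChar.inv_not_mem hι₀')
    have e : f.1 (loc (q : ℕ) ι) = f.1 (loc (q : ℕ) ι₀) := by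
      rw [show ι = ι * ι₀⁻¹ * ι₀ by rw [inv_mul_cancel_right], map_mul, cocycle_mul_mem f hm,
        hker _ (mul_mem hι (inv_mem hι₀)) (MonoidHom.mem_ker.1 hm), zero_add]
    rw [h.val_eq_neg_one h1, e, neg_one_mul, neg_neg, sub_neg_eq_add, ← add_div,
      ← two_mul, mul_div_cancel_left₀ _ h.two_ne_zero]

/-- A homomorphism of the kernel vanishing on inertia is odd for the quotient. -/
theorem unrHom_anti (h : QuadChar η) {hh : GQ → ZMod p}
    (hadd : ∀ a ∈ η.ker, ∀ b ∈ η.ker, hh (a * b) = hh a + hh b)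
    (hlc : ∃ N ∈ LQ.carrier, ∀ s ∈ N, hh s = 0)
    (hunr : ∀ q : Nat.Primes, ∀ ι ∈ inertL (q : ℕ), ∀ g : GQ,
      η (loc (q : ℕ) ι) = 1 → hh (g⁻¹ * loc (q : ℕ) ι * g) = 0) {t : GQ} (ht : t ∉ η.ker) :
    (∀ s ∈ η.ker, hh (t⁻¹ * s * t) = -hh s) ∧ hh (t * t) = 0 := by
  classical
  have hconj : ∀ s ∈ η.ker, t⁻¹ * s * t ∈ η.ker := fun s hs =>
    (MonoidHom.normal_ker η).conj_mem' s hs t
  have hR : ∀ a, a ∉ η.ker → a * t ∈ η.ker := fun a ha => h.mul_mem ha ht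
  have hL : ∀ a, a ∉ η.ker → t⁻¹ * a ∈ η.ker := fun a ha => h.mul_mem (QuadChar.inv_not_mem ht) ha
  let ψ : GQ → ZMod p := fun g =>
    if g ∈ η.ker then hh g + hh (t⁻¹ * g * t) else hh (g * t) + hh (t⁻¹ * g)
  have hψ1 : ∀ g ∈ η.ker, ψ g = hh g + hh (t⁻¹ * g * t) := fun g hg => if_pos hg
  have hψ2 : ∀ g, g ∉ η.ker → ψ g = hh (g * t) + hh (t⁻¹ * g) := fun g hg => if_neg hg
  have hmul : ∀ a b, ψ (a * b) = ψ a + ψ b := fun a b => by
    by_cases ha : a ∈ η.ker <;> by_cases hb : b ∈ η.ker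
    · rw [hψ1 _ (mul_mem ha hb), hψ1 a ha, hψ1 b hb, hadd a ha b hb,
        show t⁻¹ * (a * b) * t = t⁻¹ * a * t * (t⁻¹ * b * t) by group,
        hadd _ (hconj a ha) _ (hconj b hb)]
      abel
    · rw [hψ2 _ (fun hm => hb ((Subgroup.mul_mem_cancel_left _ ha).1 hm)), hψ1 a ha, hψ2 b hb,
        mul_assoc, hadd a ha _ (hR b hb), show t⁻¹ * (a * b) = t⁻¹ * a * t * (t⁻¹ * b) by group,
        hadd _ (hconj a ha) _ (hL b hb)]
      abel
    · rw [hψ2 _ (fun hm => ha ((Subgroup.mul_mem_cancel_right _ hb).1 hm)), hψ2 a ha, hψ1 b hb,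
        show a * b * t = a * t * (t⁻¹ * b * t) by group, hadd _ (hR a ha) _ (hconj b hb),
        show t⁻¹ * (a * b) = t⁻¹ * a * b by group, hadd _ (hL a ha) b hb]
      abel
    · rw [hψ1 _ (h.mul_mem ha hb), hψ2 a ha, hψ2 b hb,
        show a * b = a * t * (t⁻¹ * b) by group, hadd _ (hR a ha) _ (hL b hb),
        show t⁻¹ * (a * t * (t⁻¹ * b)) * t = t⁻¹ * a * (b * t) by group,
        hadd _ (hL a ha) _ (hR b hb)]
      abel
  let Ψ : GQ →* Multiplicative (ZMod p) :=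
    MonoidHom.mk' (fun g => Multiplicative.ofAdd (ψ g)) fun a b => by rw [hmul, ofAdd_add]
  obtain ⟨N, hN, hN0⟩ := hlc
  obtain ⟨M, hM, hle, hn⟩ := LQ.exists_normal (LQ.inf_mem hN h.ker_mem)
  obtain ⟨E, hE, hEM⟩ := hM
  have hone : Ψ.ker = ⊤ := by
    refine FA.Local.eq_top_of_inertia_le Ψ.ker E (fun σ hσ => MonoidHom.mem_ker.2 ?_) fun q hq => ?_
    · have hσM : σ ∈ M := hEM ((IntermediateField.mem_fixingSubgroup_iff _ _).2 hσ)
      show Multiplicative.ofAdd (ψ σ) = 1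
      rw [hψ1 _ (hle hσM).2, hN0 _ (hle hσM).1, hN0 _ (hle (hn.conj_mem' _ hσM t)).1, add_zero,
        ofAdd_zero]
    · have : Fact q.Prime := ⟨hq⟩
      refine ⟨padicPlace q, liesOverPrime_padicPlace q, fun σ hσ => ?_⟩
      obtain ⟨ι, rfl⟩ : σ ∈ (loc q).range := by
        rw [range_loc]
        exact inertiaSubgroupIn_le_decomposition _ hσ
      have hzero : ∀ ι ∈ inertL q, η (loc q ι) = 1 → ψ (loc q ι) = 0 := fun ι hι h1 => by
        have h2 := hunr ⟨q, hq⟩ ι hι 1 h1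
        rw [inv_one, one_mul, mul_one] at h2
        rw [hψ1 _ (MonoidHom.mem_ker.2 h1), h2, hunr ⟨q, hq⟩ ι hι t h1, add_zero]
      have hι : ι ∈ inertL q := hσ
      have h2 : ψ (loc q ι) + ψ (loc q ι) = 0 := by
        rw [← hmul, ← map_mul]
        exact hzero _ (mul_mem hι hι) (by rw [map_mul, map_mul, h.sq])
      rw [← two_mul, mul_eq_zero, or_iff_right h.two_ne_zero] at h2
      exact MonoidHom.mem_ker.2 (by show Multiplicative.ofAdd (ψ _) = 1; rw [h2, ofAdd_zero])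
  have hall : ∀ g, ψ g = 0 := fun g => Multiplicative.ofAdd.injective
    ((MonoidHom.mem_ker.1 (show g ∈ Ψ.ker from hone ▸ Subgroup.mem_top g)).trans ofAdd_zero.symm)
  refine ⟨fun s hs => eq_neg_of_add_eq_zero_right ((hψ1 s hs).symm.trans (hall s)), ?_⟩
  have h1 := (hψ2 t ht).symm.trans (hall t)
  have h00 : hh 1 = 0 := by simpa using hadd 1 (one_mem _) 1 (one_mem _)
  rwa [inv_mul_cancel, h00, add_zero] at h1

open Classical in
/-- An unramified homomorphism of the kernel is the restriction of a class. -/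
theorem exists_restr_eq (h : QuadChar η) {c : ↥(Z1 (LQ.sub η.ker) (triv η.ker p))}
    (hc : c ∈ unrHom p η.ker) : ∃ x, restr η x = c := by
  obtain ⟨t, ht⟩ := h.exists_not_mem
  let hh : GQ → ZMod p := fun g => if hg : g ∈ η.ker then c.1 ⟨g, hg⟩ else 0
  have hhv : ∀ s : η.ker, hh s.1 = c.1 s := fun s => dif_pos s.2
  have hadd : ∀ a ∈ η.ker, ∀ b ∈ η.ker, hh (a * b) = hh a + hh b := fun a ha b hb => by
    rw [hhv ⟨a, ha⟩, hhv ⟨b, hb⟩, ← GolodCriterion.Z1_triv_mul]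
    exact hhv ⟨a * b, _⟩
  obtain ⟨_, ⟨N, hN, rfl⟩, hNc⟩ := c.2.1
  have hN' : N ⊓ η.ker ∈ LQ.carrier := LQ.inf_mem hN h.ker_mem
  have hN0 : ∀ s ∈ N ⊓ η.ker, hh s = 0 := fun s hs => by
    rw [hhv ⟨s, hs.2⟩]
    have := hNc 1 ⟨s, hs.2⟩ (Subgroup.mem_subgroupOf.2 hs.1)
    rw [one_mul] at this
    rw [this, Z1.map_one]
  have hunr : ∀ q : Nat.Primes, ∀ ι ∈ inertL (q : ℕ), ∀ g : GQ,
      η (loc (q : ℕ) ι) = 1 → hh (g⁻¹ * loc (q : ℕ) ι * g) = 0 := fun q ι hι g h1 => by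
    have hg : g⁻¹ * loc (q : ℕ) ι * g ∈ η.ker :=
      (MonoidHom.normal_ker η).conj_mem' _ (MonoidHom.mem_ker.2 h1) g
    rw [hhv ⟨_, hg⟩]
    exact hc q g ⟨ι, (mem_hloc η.ker).2 hg⟩ hι
  obtain ⟨hanti, htt⟩ := unrHom_anti h hadd ⟨_, hN', hN0⟩ hunr ht
  have hR : ∀ a, a ∉ η.ker → a * t⁻¹ ∈ η.ker := fun a ha => h.mul_mem ha (QuadChar.inv_not_mem ht)
  have hanti' : ∀ s ∈ η.ker, hh (t * s * t⁻¹) = -hh s := fun s hs => by
    have h1 := hanti _ ((MonoidHom.normal_ker η).conj_mem s hs t)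
    rw [show t⁻¹ * (t * s * t⁻¹) * t = s by group] at h1
    rw [h1, neg_neg]
  let f : GQ → ZMod p := fun g => if g ∈ η.ker then hh g else hh (g * t⁻¹)
  have hf1 : ∀ g ∈ η.ker, f g = hh g := fun g hg => if_pos hg
  have hf2 : ∀ g, g ∉ η.ker → f g = hh (g * t⁻¹) := fun g hg => if_neg hg
  have hcoc : ∀ a b, f (a * b) = chr η a (f b) + f a := fun a b => by
    rw [chr_apply]
    by_cases ha : a ∈ η.ker
    · rw [MonoidHom.mem_ker.1 ha, Units.val_one, one_mul, hf1 a ha, add_comm]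
      by_cases hb : b ∈ η.ker
      · rw [hf1 _ (mul_mem ha hb), hf1 b hb, hadd a ha b hb]
      · rw [hf2 _ (fun hm => hb ((Subgroup.mul_mem_cancel_left _ ha).1 hm)), hf2 b hb, mul_assoc,
          hadd a ha _ (hR b hb)]
    · rw [h.val_eq_neg_one ha, neg_one_mul, hf2 a ha]
      by_cases hb : b ∈ η.ker
      · rw [hf2 _ (fun hm => ha ((Subgroup.mul_mem_cancel_right _ hb).1 hm)), hf1 b hb,
          show a * b * t⁻¹ = a * t⁻¹ * (t * b * t⁻¹) by group,
          hadd _ (hR a ha) _ ((MonoidHom.normal_ker η).conj_mem b hb t), hanti' b hb, add_comm]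
      · rw [hf1 _ (h.mul_mem ha hb), hf2 b hb,
          show a * b = a * t⁻¹ * (t * (b * t⁻¹) * t⁻¹) * (t * t) by group,
          hadd _ (mul_mem (hR a ha) ((MonoidHom.normal_ker η).conj_mem _ (hR b hb) t)) _
            (h.mul_mem ht ht), htt, add_zero,
          hadd _ (hR a ha) _ ((MonoidHom.normal_ker η).conj_mem _ (hR b hb) t),
          hanti' _ (hR b hb), add_comm]
  have hflc : LC₁ LQ f := ⟨N ⊓ η.ker, hN', fun g s hs => by
    rw [hcoc, chr_apply, hf1 s hs.2, hN0 s hs, mul_zero, zero_add]⟩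
  exact ⟨mk1 LQ (chr η) ⟨f, hflc, hcoc⟩, Subtype.ext (funext fun s => by
    rw [restr_mk1]
    exact (hf1 s.1 s.2).trans (hhv s))⟩

/-- **The unramified classes are the unramified homomorphisms of the kernel.** -/
theorem finrank_unrOutside_eq (h : QuadChar η) :
    Module.finrank (ZMod p) (unrOutside ∅ (chr η))
      = Module.finrank (ZMod p) (unrHom p η.ker) :=
  (LinearEquiv.ofBijective
    (((restr η).comp (unrOutside ∅ (chr η)).subtype).codRestrict (unrHom p η.ker)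
      fun x => restr_mem_unrHom x.2)
    ⟨fun x y hxy => Subtype.ext (restr_injective h (congrArg Subtype.val hxy)), fun c => by
      obtain ⟨x, hx⟩ := exists_restr_eq h c.2
      exact ⟨⟨x, mem_unrOutside_of_restr h (hx.symm ▸ c.2)⟩, Subtype.ext hx⟩⟩).finrank_eq

end Fermat.Agent.Reflection
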