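import Fermat.Agent.GolodCriterion.LocalClasses

/-!
# Reflection on the cohomology of complementary characters

For two characters of the Galois group of `ℚ` with product the cyclotomic one, the everywhere
unramified classes of one are at most those of the other and a correction at infinity.
-/

set_option autoImplicit false
set_option linter.unusedSectionVars false

noncomputable section

namespace Fermat.Agent.Reflection

open FA.GalCoh

variable {p : ℕ} [hp : Fact p.Prime]

/-- A character with open kernel. -/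
def SmoothChar (ε : GQ →* (ZMod p)ˣ) : Prop := ∃ N ∈ LQ.carrier, ∀ s ∈ N, ε s = 1

variable {q : ℕ} [Fact q.Prime] {ε ε' : GQ →* (ZMod p)ˣ}

theorem unrRep_chr_iff : UnrRep ((chr ε).comp (loc q)) ↔ ∀ ι ∈ inertL q, ε (loc q ι) = 1 :=
  ⟨fun h ι hι => Units.ext (by simpa using LinearMap.congr_fun (h ι hι) (1 : ZMod p)),
    fun h ι hι => LinearMap.ext fun x => by simp [h ι hι]⟩

/-- A ramified character has no invariants at the prime. -/
theorem invariants_eq_bot_of_ramified {ι : LG q} (hne : ε (loc q ι) ≠ 1) :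
    Representation.invariants ((chr ε).comp (loc q)) = ⊥ :=
  (Submodule.eq_bot_iff _).2 fun v hv => by
    have h := hv ι
    rw [MonoidHom.comp_apply, chr_apply] at h
    by_contra hv0
    exact hne (Units.ext (mul_right_cancel₀ hv0 (h.trans (one_mul v).symm)))

/-- A ramified character has no unramified classes at the prime. -/
theorem unrH1_eq_bot_of_ramified {ι : LG q} (hι : ι ∈ inertL q) (hne : ε (loc q ι) ≠ 1) :
    unrH1 ((chr ε).comp (loc q)) = ⊥ :=
  (Submodule.eq_bot_iff _).2 fun x hx => by
    obtain ⟨c, hc, rfl⟩ := hx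
    rw [show c = 0 from Subtype.ext (funext fun g => ?_), map_zero]
    show c.1 g = 0
    by_contra hg
    have hconj : g⁻¹ * ι * g ∈ inertL q := by
      simpa using GolodCriterion.conj_mem_inertL hι g⁻¹
    have h1 := c.2.2 ι g
    rw [hc ι hι, add_zero, MonoidHom.comp_apply, chr_apply,
      show ι * g = g * (g⁻¹ * ι * g) by group, c.2.2, hc _ hconj, map_zero, zero_add] at h1
    exact hne (Units.ext (mul_right_cancel₀ hg (h1.symm.trans (one_mul _).symm)))

/-- The pair of two complementary characters. -/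
def charPair (hε : SmoothChar ε) (hε' : SmoothChar ε')
    (hprod : ∀ g, ε g * ε' g = ExtCitation.cycloChar p g) :
    DPair LQ (cycQ p).χ (chr ε) (chr ε') where
  β := LinearMap.mul (ZMod p) (ZMod p)
  bil g v w := by
    show (ε g : ZMod p) * v * ((ε' g : ZMod p) * w)
      = (ExtCitation.cycloChar p g : ZMod p) * (v * w)
    rw [← hprod g, Units.val_mul]
    ring
  inj_left v v' h := by simpa using LinearMap.congr_fun h (1 : ZMod p)
  inj_right v v' h := by simpa using LinearMap.congr_fun h (1 : ZMod p)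
  fin_left := inferInstance
  fin_right := inferInstance
  smooth_left := (smooth_chr_iff ε).2 hε
  smooth_right := (smooth_chr_iff ε').2 hε'

theorem invariants_chr_eq_bot (hne : ε ≠ 1) : (chr ε).invariants = ⊥ :=
  (Submodule.eq_bot_iff _).2 fun v hv => by
    by_contra hv0
    exact hne (MonoidHom.ext fun g => Units.ext (mul_right_cancel₀ hv0
      (((chr_apply ε g v).symm.trans (hv g)).trans (one_mul v).symm)))

theorem finrank_ker_conj_le_one (ε : GQ →* (ZMod p)ˣ) :
    Module.finrank (ZMod p) (LinearMap.ker ((chr ε) complexConjugation - 1)) ≤ 1 :=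
  (Submodule.finrank_le _).trans (Module.finrank_self _).le

theorem finrank_ker_conj_eq_zero (h : ε complexConjugation ≠ 1) :
    Module.finrank (ZMod p) (LinearMap.ker ((chr ε) complexConjugation - 1)) = 0 := by
  rw [(LinearMap.ker_eq_bot' (M := ZMod p)).2 fun v hv => ?_, finrank_bot]
  rw [LinearMap.sub_apply, sub_eq_zero, chr_apply, Module.End.one_apply] at hv
  by_contra hv0
  exact h (Units.ext (mul_right_cancel₀ hv0 (hv.trans (one_mul v).symm)))

/-- The everywhere unramified classes form a finite dimensional space. -/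
theorem finiteDimensional_unrOutside (hp2 : p ≠ 2) (hε : SmoothChar ε) (hε' : SmoothChar ε')
    (hprod : ∀ g, ε g * ε' g = ExtCitation.cycloChar p g) (S : Finset Nat.Primes) :
    FiniteDimensional (ZMod p) (unrOutside S (chr ε)) :=
  have := finite_unrOutside_of (charPair hε hε' hprod) hp2 S
  Module.Finite.of_finite

/-- **Reflection**: the unramified classes of `ε'` are at most those of `ε` and the fixed vectors of
complex conjugation in `ε`. -/
theorem finrank_unrOutside_le (hp2 : p ≠ 2) (hε : SmoothChar ε) (hε' : SmoothChar ε')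
    (hprod : ∀ g, ε g * ε' g = ExtCitation.cycloChar p g) (hne : ε ≠ 1) (hne' : ε' ≠ 1) :
    Module.finrank (ZMod p) (unrOutside ∅ (chr ε'))
      ≤ Module.finrank (ZMod p) (unrOutside ∅ (chr ε))
        + Module.finrank (ZMod p) (LinearMap.ker ((chr ε) complexConjugation - 1)) := by
  classical
  obtain ⟨N, hN, hN1⟩ := hε
  obtain ⟨S₀, hS₀⟩ := exists_inertL_subset hN
  set S : Finset Nat.Primes := insert ⟨p, hp.out⟩ S₀ with hS
  have hpS : (⟨p, hp.out⟩ : Nat.Primes) ∈ S := Finset.mem_insert_self _ _
  set P := charPair ⟨N, hN, hN1⟩ hε' hprod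
  have hunr : ∀ q : Nat.Primes, q ∉ S → UnrRep ((chr ε).comp (loc (q : ℕ))) := fun q hq =>
    unrRep_chr_iff.2 fun ι hι => hN1 _ (hS₀ q (fun h => hq (Finset.mem_insert_of_mem h)) ι hι)
  set L : LocCond S (chr ε) := fun q => unrH1 ((chr ε).comp (loc (q.1 : ℕ))) with hL
  have hdim : ∀ q : {q : Nat.Primes // q ∈ S}, Module.finrank (ZMod p) (L q)
      = Module.finrank (ZMod p)
          ↥(Representation.invariants ((chr ε).comp (loc (q.1 : ℕ)))) := fun q => by
    by_cases h : UnrRep ((chr ε).comp (loc (q.1 : ℕ)))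
    · exact (finrank_unrH1 h (P.smooth_left.comp compat_loc)).2
    · rw [unrRep_chr_iff] at h
      push Not at h
      obtain ⟨ι, hι, hne1⟩ := h
      rw [invariants_eq_bot_of_ramified hne1]
      show Module.finrank (ZMod p) (unrH1 ((chr ε).comp (loc (q.1 : ℕ)))) = _
      rw [unrH1_eq_bot_of_ramified hι hne1, finrank_bot, finrank_bot]
  have horth : ∀ q : {q : Nat.Primes // q ∈ S},
      unrH1 ((chr ε').comp (loc (q.1 : ℕ))) ≤ orthQ (q.1 : ℕ) P (L q) := fun q y hy => by
    refine mem_orthQ.2 fun x hx => ?_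
    have hx' : x ∈ unrH1 ((chr ε).comp (loc (q.1 : ℕ))) := hx
    by_cases h : ∀ ι ∈ inertL (q.1 : ℕ), ε (loc (q.1 : ℕ) ι) = 1 ∧ ε' (loc (q.1 : ℕ) ι) = 1
    · have hσ : UnrRep ((chr ε').comp (loc (q.1 : ℕ))) :=
        unrRep_chr_iff.2 fun ι hι => (h ι hι).2
      have hτ : UnrRep (chr (cycL p (q.1 : ℕ)).χ) := fun ι hι => LinearMap.ext fun v => by
        show ((cycL p (q.1 : ℕ)).χ ι : ZMod p) * v = v
        rw [cycL_chi, MonoidHom.comp_apply, ← hprod, (h ι hι).1, (h ι hι).2, one_mul,
          Units.val_one, one_mul]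
      rw [pair11Q, pair11_apply, cupc_eq_zero_of_unr (locPair (q.1 : ℕ) P).bil hσ hτ
        (locPair (q.1 : ℕ) P).smooth_left (locPair (q.1 : ℕ) P).smooth_right
        (cycL p (q.1 : ℕ)).smooth_chr hx' hy, map_zero]
    · push Not at h
      obtain ⟨ι, hι, himp⟩ := h
      by_cases h1 : ε (loc (q.1 : ℕ) ι) = 1
      · rw [unrH1_eq_bot_of_ramified hι (himp h1), Submodule.mem_bot] at hy
        rw [hy, map_zero]
      · rw [unrH1_eq_bot_of_ramified hι h1, Submodule.mem_bot] at hx'
        rw [hx', map_zero, LinearMap.zero_apply]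
  have hsel : selS S (chr ε) L = unrOutside ∅ (chr ε) := le_antisymm
    (fun x hx => mem_unrOutside.2 fun q _ => by
      by_cases hq : q ∈ S
      · exact (mem_selS.1 hx).2 ⟨q, hq⟩
      · exact mem_unrOutside.1 (mem_selS.1 hx).1 q hq)
    (fun x hx => mem_selS.2 ⟨unrOutside_mono (Finset.empty_subset S) hx,
      fun q => mem_unrOutside.1 hx q.1 (Finset.notMem_empty _)⟩)
  have hsel' : unrOutside ∅ (chr ε') ≤ selS S (chr ε') fun q => orthQ (q.1 : ℕ) P (L q) :=
    fun x hx => mem_selS.2 ⟨unrOutside_mono (Finset.empty_subset S) hx,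
      fun q => horth q (mem_unrOutside.1 hx q.1 (Finset.notMem_empty _))⟩
  have : FiniteDimensional (ZMod p) (unrOutside S (chr ε')) :=
    finiteDimensional_unrOutside hp2 hε' ⟨N, hN, hN1⟩
      (fun g => by rw [mul_comm, hprod]) S
  have : FiniteDimensional (ZMod p) (selS S (chr ε') fun q => orthQ (q.1 : ℕ) P (L q)) :=
    Submodule.finiteDimensional_of_le (selS_le S _)
  have hle := Submodule.finrank_mono hsel'
  have hf := finrank_selS_formula P hp2 hpS hunr L
  rw [hsel, invariants_chr_eq_bot hne, invariants_chr_eq_bot hne', finrank_bot,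
    Finset.sum_congr rfl fun q _ => hdim q] at hf
  omega

end Fermat.Agent.Reflection
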